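/-
S45 library (helper9), block Model: **the descent to level 2.**

If the mod `p` representation of the Frey curve is irreducible and modular of a conductor level
`N`, then it is modular of a level dividing `2`: remove `p` by S44 (Mazur–Ribet), then the odd
primes `q ≠ p` one at a time by S05 (unramified) + S43 (Ribet).  A normalized eigenform of level
`1` does not exist (S08), so the level is `2` and the eigenform is the nonzero cusp form wanted.
-/
import Fermat.Agent.S05
import Fermat.Agent.S08
import Fermat.Agent.S43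
import Fermat.Agent.S44

set_option autoImplicit false

namespace Fermat.Agent.S45lib.Model

open WeierstrassCurve WeierstrassCurve.Affine WeierstrassCurve.Affine.Point
open FreyPackage

/-- a squarefree number whose only possible prime divisor is `2` divides `2`. -/
lemma dvd_two_of_squarefree_of_forall_prime {N : ℕ} (hN : Squarefree N)
    (h : ∀ q : ℕ, q.Prime → q ∣ N → q = 2) : N ∣ 2 := by
  rw [← Nat.prod_primeFactors_of_squarefree hN]
  refine Finset.prod_primes_dvd 2 (fun q hq => (Nat.prime_of_mem_primeFactors hq).prime)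
    (fun q hq => ?_)
  rw [h q (Nat.prime_of_mem_primeFactors hq) (Nat.dvd_of_mem_primeFactors hq)]

/-- **Descent**: from a conductor level to a level dividing `2`. -/
theorem exists_level_dvd_two (P : FreyPackage)
    (hirr : GaloisRepIsIrreducible (K := AlgebraicClosure ℚ) ℚ P.freyCurve P.p) :
    ∀ N : ℕ, P.IsConductorLevel N → P.ModularRepOfLevel N →
      ∃ M : ℕ, M ∣ 2 ∧ P.ModularRepOfLevel M := by
  intro N
  induction N using Nat.strong_induction_on with
  | _ N ih =>
    intro hcond hmod
    have hNpos : 0 < N := hcond.pos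
    by_cases hpN : P.p ∣ N
    · -- remove `p`
      obtain ⟨M, hMN, hpM, hM⟩ := Fermat.Agent.S44.result P hcond hpN hirr hmod
      have hMpos : 0 < M := Nat.pos_of_dvd_of_pos hMN hNpos
      have hlt : M < N :=
        lt_of_le_of_ne (Nat.le_of_dvd hNpos hMN) (fun h => hpM (h ▸ hpN))
      exact ih M hlt (hcond.of_dvd hMN hMpos) hM
    · by_cases hodd : ∃ q : ℕ, q.Prime ∧ q ∣ N ∧ q ≠ 2
      · -- remove an odd prime `q ≠ p`
        obtain ⟨q, hq, hqN, hq2⟩ := hodd
        have hqp : q ≠ P.p := fun h => hpN (h ▸ hqN)
        obtain ⟨M, hMN, hqM, hM⟩ := Fermat.Agent.S43.result P hcond hq hq2 hqp hqN hirr hmod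
          (Fermat.Agent.S05.result P hq hq2 hqp)
        have hMpos : 0 < M := Nat.pos_of_dvd_of_pos hMN hNpos
        have hlt : M < N :=
          lt_of_le_of_ne (Nat.le_of_dvd hNpos hMN) (fun h => hqM (h ▸ hqN))
        exact ih M hlt (hcond.of_dvd hMN hMpos) hM
      · -- only the prime `2` is left
        refine ⟨N, dvd_two_of_squarefree_of_forall_prime hcond.squarefree ?_, hmod⟩
        intro q hq hqN
        by_contra hq2
        exact hodd ⟨q, hq, hqN, hq2⟩

/-- **The conclusion of S45 from modularity at a conductor level.** -/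
theorem exists_cuspForm_two_of_modularRep (P : FreyPackage)
    (hirr : GaloisRepIsIrreducible (K := AlgebraicClosure ℚ) ℚ P.freyCurve P.p)
    {N : ℕ} (hcond : P.IsConductorLevel N) (hmod : P.ModularRepOfLevel N) :
    ∃ f : CuspForm (CongruenceSubgroup.Gamma0 2) 2, f ≠ 0 := by
  obtain ⟨M, hM2, hM⟩ := exists_level_dvd_two P hirr N hcond hmod
  have hM12 : M = 1 ∨ M = 2 := (Nat.dvd_prime Nat.prime_two).mp hM2
  rcases hM12 with rfl | rfl
  · obtain ⟨f, -, -, hf, -⟩ := hM
    exact absurd (Fermat.Agent.S08.result f) hf.ne_zero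
  · obtain ⟨f, -, -, hf, -⟩ := hM
    exact ⟨f, hf.ne_zero⟩

end Fermat.Agent.S45lib.Model
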