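/-
S45 library (helper9), block Model: **`a_ℓ` does not depend on the integral model.**

Two integral Weierstrass models `W`, `W₀` whose base changes to `ℚ` differ by a change of
variables over `ℚ` have the same `a_ℓ` at every prime `ℓ` that is good for both.

Proof without any integrality of the change of variables: the change of variables gives a
`G_ℚ`-equivariant isomorphism `W₀(ℚ̄) ≃+ W(ℚ̄)` (`S51lib.vcEquivBaseChange`), hence of the
`p^k`-torsion for one auxiliary prime `p ≠ ℓ` and every `k`; by helper4's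
`S52lib.Cong.apOfModel_sub_dvd_of_tors_iso` the difference `a_ℓ(W₀) - a_ℓ(W)` is divisible by
`p^k` for all `k`, hence zero.
-/
import Fermat.Agent.S51lib.Transfer
import Fermat.Agent.S52lib.Cong.Basic

set_option autoImplicit false
set_option linter.style.haveILetI false
set_option linter.unusedSectionVars false

noncomputable section

namespace Fermat.Agent.S45lib.Model

open WeierstrassCurve
open Fermat.Agent.S58lib.Tate

/-! ### restriction of an additive equivalence to the `p^k`-torsion -/

section Tors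

variable {A B : Type} [AddCommGroup A] [AddCommGroup B]

/-- an additive equivalence restricts to the `p^k`-torsion. -/
def torsCongr (e : A ≃+ B) (p k : ℕ) : tors A p k ≃+ tors B p k where
  toFun x := ⟨e x, by
    have hx := x.2
    rw [mem_tors] at hx ⊢
    rw [← map_nsmul, hx, map_zero]⟩
  invFun y := ⟨e.symm y, by
    have hy := y.2
    rw [mem_tors] at hy ⊢
    rw [← map_nsmul, hy, map_zero]⟩
  left_inv x := Subtype.ext (e.symm_apply_apply _)
  right_inv y := Subtype.ext (e.apply_symm_apply _)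
  map_add' x y := Subtype.ext (map_add e _ _)

lemma torsCongr_coe (e : A ≃+ B) (p k : ℕ) (x : tors A p k) :
    ((torsCongr e p k x : tors B p k) : B) = e (x : A) := rfl

end Tors

/-! ### an integer divisible by all powers of a prime is zero -/

lemma int_eq_zero_of_forall_pow_dvd {p : ℕ} (hp : p.Prime) {d : ℤ}
    (h : ∀ k : ℕ, ((p ^ k : ℕ) : ℤ) ∣ d) : d = 0 := by
  by_contra hd
  have hlt : d.natAbs < p ^ d.natAbs := Nat.lt_pow_self hp.one_lt
  have hdvd : p ^ d.natAbs ∣ d.natAbs := Int.natCast_dvd.mp (h d.natAbs)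
  have hpos : 0 < d.natAbs := Int.natAbs_pos.mpr hd
  exact absurd (Nat.le_of_dvd hpos hdvd) (not_le.mpr hlt)

/-- an auxiliary prime different from `ℓ`. -/
lemma exists_prime_ne (l : ℕ) : ∃ p : ℕ, p.Prime ∧ l ≠ p := by
  by_cases h : l = 2
  · exact ⟨3, Nat.prime_three, by omega⟩
  · exact ⟨2, Nat.prime_two, h⟩

/-! ### the model change -/

/-- a change of variables over `ℚ` induces a `G_ℚ`-equivariant isomorphism of the groups of
`ℚ̄`-points. -/
lemma exists_equivariant_equiv (E E₀ : WeierstrassCurve ℚ) (C : VariableChange ℚ)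
    (hC : C • E = E₀) :
    ∃ e : Pts E₀ ≃+ Pts E, ∀ (σ : GQ) (x : Pts E₀), e (σ • x) = σ • e x := by
  subst hC
  exact ⟨Fermat.Agent.S51lib.vcEquivBaseChange (K := Qb) E C,
    fun σ x => Fermat.Agent.S51lib.vcEquivBaseChange_smul (K := Qb) E C σ x⟩

/-- **Model change, `ℚ`-isomorphism form.**  If `C • W_ℚ = W₀_ℚ` for a change of variables over
`ℚ`, then `a_ℓ(W) = a_ℓ(W₀)` at every prime good for both models. -/
theorem apOfModel_eq_of_ratIso (W W₀ : WeierstrassCurve ℤ) (hΔ : W.Δ ≠ 0) (hΔ₀ : W₀.Δ ≠ 0)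
    (C : VariableChange ℚ) (hC : C • WQ' W = WQ' W₀)
    {l : ℕ} (hl : l.Prime) (hg : W.IsGoodPrimeFor l) (hg₀ : W₀.IsGoodPrimeFor l) :
    W.apOfModel l = W₀.apOfModel l := by
  obtain ⟨p, hp, hlp⟩ := exists_prime_ne l
  have : Fact p.Prime := ⟨hp⟩
  -- the equivariant isomorphism of the groups of points
  obtain ⟨e, hsmul⟩ := exists_equivariant_equiv (WQ' W) (WQ' W₀) C hC
  have hdvd : ∀ k : ℕ, ((p ^ k : ℕ) : ℤ) ∣ W.apOfModel l - W₀.apOfModel l := by
    intro k
    refine Fermat.Agent.S52lib.Cong.apOfModel_sub_dvd_of_tors_iso p W₀ W hΔ₀ hΔ k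
      (torsCongr e p k) ?_ hl hlp hg₀ hg
    intro σ x
    apply Subtype.ext
    rw [torsCongr_coe]
    exact hsmul σ _
  exact sub_eq_zero.mp (int_eq_zero_of_forall_pow_dvd hp hdvd)

end Fermat.Agent.S45lib.Model
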