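/-
S45 library (helper9), block Model: **from `IsModular E` to a newform attached to a CHOSEN
integral model.**

`E.IsModular` provides SOME integral model `W'` of `E`, a level `N₀ > 0` and a normalized
eigenform `f` of level `N₀` with `a_ℓ(f) = a_ℓ(W')` at the primes `ℓ ∤ N₀` good for `W'`.
For any other integral model `W₀` of `E` (e.g. a semistable one) we produce
* a level `N ≠ 0` divisible by `N₀` and by all bad primes of `W₀`,
* a newform `g` (Prelude sense) of a level `M ∣ N`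
with `a_ℓ(g) = a_ℓ(W₀)` for all primes `ℓ ∤ N`.  This is exactly the input of Steps 1, 2, 4 of
`S58lib.Main` (which never use any further property of `N` except in Step 1).
-/
import Fermat.Agent.S45lib.Model.ApEq
import Fermat.Agent.S58lib.Stab.MinLevel

set_option autoImplicit false
set_option linter.style.haveILetI false
set_option linter.unusedSectionVars false

noncomputable section

namespace Fermat.Agent.S45lib.Model

open WeierstrassCurve CuspForm
open Fermat.Agent.S58lib.Tate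

/-! ### two integral models of the same curve -/

/-- two integral models of the same curve over `ℚ` differ by a change of variables over `ℚ`. -/
lemma exists_ratIso_of_isIntegralModelOf {W W₀ : WeierstrassCurve ℤ} {E : WeierstrassCurve ℚ}
    (hW : W.IsIntegralModelOf E) (hW₀ : W₀.IsIntegralModelOf E) :
    ∃ C : VariableChange ℚ, C • WQ' W = WQ' W₀ := by
  obtain ⟨C₁, h₁⟩ := hW
  obtain ⟨C₀, h₀⟩ := hW₀
  refine ⟨C₀ * C₁⁻¹, ?_⟩
  change (C₀ * C₁⁻¹) • W.map (Int.castRingHom ℚ) = W₀.map (Int.castRingHom ℚ)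
  rw [← h₁, ← h₀, mul_smul, inv_smul_smul]

/-- the discriminants of two `ℚ`-isomorphic integral models vanish simultaneously. -/
lemma Δ_ne_zero_of_ratIso {W W₀ : WeierstrassCurve ℤ} (C : VariableChange ℚ)
    (hC : C • WQ' W = WQ' W₀) (hΔ₀ : W₀.Δ ≠ 0) : W.Δ ≠ 0 := by
  intro hΔ
  have h1 : (WQ' W₀).Δ = ((C.u⁻¹ : ℚˣ) : ℚ) ^ 12 * (WQ' W).Δ := by
    rw [← hC, WeierstrassCurve.variableChange_Δ]
  have h2 : (WQ' W).Δ = 0 := by
    change (W.map (Int.castRingHom ℚ)).Δ = 0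
    rw [WeierstrassCurve.map_Δ, hΔ, map_zero]
  rw [h2, mul_zero] at h1
  exact WQ'_Δ_ne_zero hΔ₀ h1

/-- **Model change, integral-model form.** -/
theorem apOfModel_eq_of_isIntegralModelOf {W W₀ : WeierstrassCurve ℤ} {E : WeierstrassCurve ℚ}
    (hW : W.IsIntegralModelOf E) (hW₀ : W₀.IsIntegralModelOf E)
    {l : ℕ} (hl : l.Prime) (hg : W.IsGoodPrimeFor l) (hg₀ : W₀.IsGoodPrimeFor l) :
    W.apOfModel l = W₀.apOfModel l := by
  obtain ⟨C, hC⟩ := exists_ratIso_of_isIntegralModelOf hW hW₀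
  have hΔ : W.Δ ≠ 0 := fun h => hg (by rw [h]; exact dvd_zero _)
  have hΔ₀ : W₀.Δ ≠ 0 := fun h => hg₀ (by rw [h]; exact dvd_zero _)
  exact apOfModel_eq_of_ratIso W W₀ hΔ hΔ₀ C hC hl hg hg₀

/-! ### the newform attached to a chosen model -/

/-- **From `IsModular` to a newform attached to the chosen model `W₀`.** -/
theorem exists_newform_of_isModular {E : WeierstrassCurve ℚ} (hmod : E.IsModular)
    {W₀ : WeierstrassCurve ℤ} (hW₀ : W₀.IsIntegralModelOf E) (hΔ₀ : W₀.Δ ≠ 0) :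
    ∃ (N : ℕ) (_ : N ≠ 0) (M : ℕ) (_ : NeZero M) (_ : M ∣ N)
      (g : CuspForm (CongruenceSubgroup.Gamma0 M) 2), g.IsNewform ∧
      (∀ l : ℕ, l.Prime → (l : ℤ) ∣ W₀.Δ → l ∣ N) ∧
      ∀ l : ℕ, l.Prime → ¬ l ∣ N →
        ModularFormClass.qCoeff g l = (W₀.apOfModel l : ℂ) := by
  obtain ⟨W', hW', N₀, hN₀pos, f, hf, hfW'⟩ := hmod
  have hN₀ : N₀ ≠ 0 := hN₀pos.ne'
  obtain ⟨C, hC⟩ := exists_ratIso_of_isIntegralModelOf hW' hW₀
  have hΔ' : W'.Δ ≠ 0 := Δ_ne_zero_of_ratIso C hC hΔ₀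
  obtain ⟨M, hMN₀, g, hg, hgf⟩ :=
    Fermat.Agent.S58lib.Stab.exists_isNewform_of_isNormalizedEigenform hN₀ f hf
  have hM0 : M ≠ 0 := fun h => hN₀ (by rw [h] at hMN₀; exact zero_dvd_iff.mp hMN₀)
  set N : ℕ := N₀ * W'.Δ.natAbs * W₀.Δ.natAbs with hN
  have hN0 : N ≠ 0 :=
    mul_ne_zero (mul_ne_zero hN₀ (Int.natAbs_ne_zero.mpr hΔ')) (Int.natAbs_ne_zero.mpr hΔ₀)
  have hN₀N : N₀ ∣ N := (dvd_mul_right _ _).trans (dvd_mul_right _ _)
  refine ⟨N, hN0, M, ⟨hM0⟩, hMN₀.trans hN₀N, g, hg, ?_, ?_⟩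
  · intro l _ hl
    exact (Int.natCast_dvd.mp hl).trans (dvd_mul_left _ _)
  · intro l hl hlN
    have h1 : ¬ l ∣ N₀ := fun h => hlN (h.trans hN₀N)
    have h2 : W'.IsGoodPrimeFor l := fun h =>
      hlN (((Int.natCast_dvd.mp h).trans (dvd_mul_left _ _)).trans (dvd_mul_right _ _))
    have h3 : W₀.IsGoodPrimeFor l := fun h =>
      hlN ((Int.natCast_dvd.mp h).trans (dvd_mul_left _ _))
    rw [hgf l hl h1, hfW' l hl h2 h1,
      apOfModel_eq_of_isIntegralModelOf hW' hW₀ hl h2 h3]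

end Fermat.Agent.S45lib.Model
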