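/-
S45 library (helper9), block Model: **S58 without the cube-free hypothesis, conditional on the
Galois form of Carayol's theorem for all exponents `≥ 2`.**

`S36kGal` is the conclusion of `S36lib.s36_of_inertiaKill` (on main, exponent `= 2`) with
`N.factorization q = 2` replaced by `2 ≤ N.factorization q`, for a newform `g`.

From it:
* `not_sq_dvd_level_k` : Step 1 of `S58lib.Main` at one residual prime `p ≠ q`, no cube-free
  hypothesis;
* `isModularModelOfLevel_conductorLevel_of_newform` : Steps 2–5 of `S58lib.Main` with Step 1 as a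
  hypothesis (`N` arbitrary, `≠ 0`);
* `s58k` : two odd residual primes `p ≠ p'` with `W[p]`, `W[p']` irreducible ⇒ `W` is modular of
  level `rad Δ`, starting from a newform `g` of level `M ∣ N` with `a_ℓ(g) = a_ℓ(W)` off `N`.
-/
import Fermat.Agent.S58lib.Assemble
import Fermat.Agent.S58lib.Cnt.FrobCore
import Fermat.Agent.S58lib.Mod.EigenData

set_option autoImplicit false
set_option linter.style.haveILetI false
set_option linter.unusedSectionVars false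

noncomputable section

namespace Fermat.Agent.S45lib.Model

open WeierstrassCurve Polynomial CuspForm
open Fermat.Agent.S58lib

/-- **Carayol for all exponents `≥ 2`, Galois form** (the shape of `S36lib.s36_of_inertiaKill`
for a newform, with `2 ≤ N.factorization q`). -/
def S36kGal : Prop :=
  ∀ (p : ℕ) [Fact p.Prime] (N : ℕ) [NeZero N]
    {g : CuspForm (CongruenceSubgroup.Gamma0 N) 2} (_ : g.IsNewform) (S : Finset ℕ)
    (_ : p ∈ S) (_ : ∀ q : ℕ, q.Prime → q ∣ N → q ∈ S)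
    (𝒪' : Type) [CommRing 𝒪'] [IsDomain 𝒪'] [IsDiscreteValuationRing 𝒪']
    [IsAdicComplete (IsLocalRing.maximalIdeal 𝒪') 𝒪'] [Finite (IsLocalRing.ResidueField 𝒪')]
    [CharZero 𝒪'] (_ : (p : 𝒪') ∈ IsLocalRing.maximalIdeal 𝒪')
    (chig : CuspForm.heckeAlgebra N 2 (↑S : Set ℕ) →+* ℂ)
    (_ : ∀ (ℓ : ℕ) (hℓ : ℓ.Prime) (hℓN : ¬ ℓ ∣ N) (hℓS : ℓ ∉ (↑S : Set ℕ)),
      chig (CuspForm.heckeAlgebra.T hℓ hℓN hℓS) = ModularFormClass.qCoeff g ℓ)
    (iota : chig.range →+* 𝒪')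
    (_ : ∀ (𝒪'' : Type) [CommRing 𝒪''] [IsDomain 𝒪''] [IsDiscreteValuationRing 𝒪'']
      [IsAdicComplete (IsLocalRing.maximalIdeal 𝒪'') 𝒪''] [Finite (IsLocalRing.ResidueField 𝒪'')]
      [CharZero 𝒪''] [Algebra 𝒪' 𝒪''] [Module.Finite 𝒪' 𝒪''] [IsLocalHom (algebraMap 𝒪' 𝒪'')],
      Function.Injective (algebraMap 𝒪' 𝒪'') → ∀ (ρ : GaloisRepAdic 𝒪''),
      (∀ (ℓ : ℕ) (hℓ : ℓ.Prime) (_ : ℓ ≠ p) (hℓN : ¬ ℓ ∣ N) (hℓS : ℓ ∉ (↑S : Set ℕ)),
        ∀ A : ValuationSubring (AlgebraicClosure ℚ), A.LiesOverPrime ℓ →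
          ∀ σ : AlgebraicClosure ℚ ≃ₐ[ℚ] AlgebraicClosure ℚ, A.IsFrobeniusAt σ ℓ →
            LinearMap.charpoly (ρ.ρ σ) =
              X ^ 2 - C (algebraMap 𝒪' 𝒪'' ((iota.comp chig.rangeRestrict)
                (CuspForm.heckeAlgebra.T hℓ hℓN hℓS))) * X + C ((ℓ : 𝒪'')))
      → ρ.residual.IsAbsolutelyIrreducible),
    ∃ (𝒪'' : Type) (_ : CommRing 𝒪'') (_ : IsDomain 𝒪'') (_ : IsDiscreteValuationRing 𝒪'')
      (_ : IsAdicComplete (IsLocalRing.maximalIdeal 𝒪'') 𝒪'')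
      (_ : Finite (IsLocalRing.ResidueField 𝒪'')) (_ : CharZero 𝒪'')
      (_ : Algebra 𝒪' 𝒪'') (_ : Module.Finite 𝒪' 𝒪'') (_ : IsLocalHom (algebraMap 𝒪' 𝒪'')),
    Function.Injective (algebraMap 𝒪' 𝒪'') ∧
    ∃ ρ : GaloisRepAdic 𝒪'',
      (∀ (ℓ : ℕ) (hℓ : ℓ.Prime) (hℓN : ¬ ℓ ∣ N) (hℓS : ℓ ∉ (↑S : Set ℕ)),
        ∀ A : ValuationSubring (AlgebraicClosure ℚ), A.LiesOverPrime ℓ →
          ∀ σ : AlgebraicClosure ℚ ≃ₐ[ℚ] AlgebraicClosure ℚ, A.IsFrobeniusAt σ ℓ →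
            LinearMap.charpoly (ρ.ρ σ) =
              X ^ 2 - C (algebraMap 𝒪' 𝒪'' ((iota.comp chig.rangeRestrict)
                (CuspForm.heckeAlgebra.T hℓ hℓN hℓS))) * X + C ((ℓ : 𝒪''))) ∧
      (∀ q : ℕ, q.Prime → q ≠ p → 2 ≤ N.factorization q → ¬ ρ.IsUnipotentOnInertiaAt q)

section Steps

variable (W : WeierstrassCurve ℤ) (T : TateFam)

/-- **Step 1, all exponents.** `q² ∤ M` for `q ≠ p`, with no cube-free hypothesis on `N`. -/
theorem not_sq_dvd_level_k (h36 : S36kGal) (hTU : TateUnip T)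
    (hCC : CmpCharpoly W T) (hCR : CmpRes W) (hED : EigenData)
    {N : ℕ} (hN0 : N ≠ 0) (p : ℕ) [Fact p.Prime] (hp2 : p ≠ 2)
    (hirr : W.ModRepIsIrreducible p)
    {M : ℕ} [NeZero M] (hMN : M ∣ N) {g : CuspForm (CongruenceSubgroup.Gamma0 M) 2}
    (hg : g.IsNewform)
    (hgW : ∀ ℓ : ℕ, ℓ.Prime → ¬ ℓ ∣ N → ModularFormClass.qCoeff g ℓ = (W.apOfModel ℓ : ℂ))
    (q : ℕ) (hq : q.Prime) (hqp : q ≠ p) : ¬ q ^ 2 ∣ M := by
  intro hq2
  have hM0 : M ≠ 0 := NeZero.ne M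
  have hfact : 2 ≤ M.factorization q := (hq.pow_dvd_iff_le_factorization hM0).mp hq2
  set S : Finset ℕ := insert p N.primeFactors with hS
  have hpS : p ∈ S := Finset.mem_insert_self _ _
  have hMS : ∀ q' : ℕ, q'.Prime → q' ∣ M → q' ∈ S := fun q' hq' hq'M =>
    Finset.mem_insert_of_mem (Nat.mem_primeFactors.mpr ⟨hq', hq'M.trans hMN, hN0⟩)
  obtain ⟨O', _, _, _, _, _, _, hpO', chig, hchig, iota, -⟩ := hED M g hg.1 p S hMS
  have hS₀ : insert p (S ∪ N.primeFactors) = S := by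
    ext x
    simp only [hS, Finset.mem_insert, Finset.mem_union]
    tauto
  obtain ⟨O'', _, _, _, _, _, _, _, _, _, -, ρ, hatt, hnot⟩ :=
    h36 p M hg S hpS hMS O' hpO' chig hchig iota
      (by
        intro O₂ _ _ _ _ _ _ _ _ _ _ ρ₂ hatt₂
        have hA₂ : AttachedToW W ρ₂ S :=
          hS₀ ▸ attachedToW_of_attached hN0 hMN hgW chig hchig iota ρ₂ p hatt₂
        exact hCR p hp2 hirr O₂ (natCast_mem_maximalIdeal_of_isLocalHom hpO') ρ₂ S hA₂)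
  have hA : AttachedToW W ρ S :=
    hS₀ ▸ attachedToW_of_attached hN0 hMN hgW chig hchig iota ρ p
      (fun ℓ hℓ _ hℓM hℓS => hatt ℓ hℓ hℓM hℓS)
  obtain ⟨ι, hι⟩ := hCC p O'' (natCast_mem_maximalIdeal_of_isLocalHom hpO') ρ S hA
  refine hnot q hq hqp hfact ?_
  intro P hP σ hσ
  rw [hι σ, hTU p hp2 q hq hqp P hP σ hσ]
  simp

/-- **Steps 2–5 of S58 with Step 1 as a hypothesis** (`N ≠ 0` arbitrary). -/
theorem isModularModelOfLevel_conductorLevel_of_steps (hΔ : W.Δ ≠ 0)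
    (hTF : TateFrob W T) (hCC : CmpCharpoly W T) (hED : EigenData) (hAB : ApBound)
    {N : ℕ} (hN0 : N ≠ 0)
    {M : ℕ} [NeZero M] (hMN : M ∣ N) {g : CuspForm (CongruenceSubgroup.Gamma0 M) 2}
    (hg : g.IsNewform)
    (hgW : ∀ ℓ : ℕ, ℓ.Prime → ¬ ℓ ∣ N → ModularFormClass.qCoeff g ℓ = (W.apOfModel ℓ : ℂ))
    (h1 : ∀ q : ℕ, q.Prime → ¬ q ^ 2 ∣ M) :
    W.IsModularModelOfLevel W.conductorLevel := by
  -- Step 2
  have h2 : ∀ q : ℕ, q.Prime → q ∣ M → (q : ℤ) ∣ W.Δ := fun q hq hqM =>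
    dvd_delta_of_dvd_level W T hTF hCC hED hAB hN0 hMN hg hgW q hq hqM (h1 q hq)
  -- Step 3
  have hsf : Squarefree M := by
    rw [Nat.squarefree_iff_prime_squarefree]
    intro q hq hqq
    exact h1 q hq (by rwa [pow_two])
  have h3 : M ∣ W.conductorLevel :=
    dvd_of_squarefree_of_forall_prime hsf fun q hq hqM =>
      (W.prime_dvd_conductorLevel_iff hΔ hq).mpr (h2 q hq hqM)
  -- Steps 4, 5
  refine Stab.isModularModelOfLevel_conductorLevel_of_dvd W h3 g hg.1 ?_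
  intro ℓ hℓ hgood
  exact qCoeff_eq_of_good W T hTF hCC hED hN0 hMN hg hgW ℓ hℓ
    (fun h => hgood (h2 ℓ hℓ h)) hgood

end Steps

/-- **S58 for arbitrary levels, conditional on `S36kGal`**: a semistable `W` with two distinct
odd residual primes `p ≠ p'` at which `W[·]` is irreducible, and a newform `g` of level `M ∣ N`
with `a_ℓ(g) = a_ℓ(W)` for all primes `ℓ ∤ N`, is modular of level `rad Δ`. -/
theorem s58k (h36 : S36kGal) (W : WeierstrassCurve ℤ) (hΔ : W.Δ ≠ 0)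
    (hss : W.IsSemistableModel)
    (p : ℕ) [Fact p.Prime] (hp2 : p ≠ 2) (hirr : W.ModRepIsIrreducible p)
    (p' : ℕ) [Fact p'.Prime] (hp'2 : p' ≠ 2) (hirr' : W.ModRepIsIrreducible p')
    (hpp' : p ≠ p')
    {N : ℕ} (hN0 : N ≠ 0)
    {M : ℕ} [NeZero M] (hMN : M ∣ N) {g : CuspForm (CongruenceSubgroup.Gamma0 M) 2}
    (hg : g.IsNewform)
    (hgW : ∀ ℓ : ℕ, ℓ.Prime → ¬ ℓ ∣ N → ModularFormClass.qCoeff g ℓ = (W.apOfModel ℓ : ℂ)) :
    W.IsModularModelOfLevel W.conductorLevel := by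
  have hFC := Fermat.Agent.S58lib.Cnt.frobCore
  have hED := Fermat.Agent.S58lib.Mod.eigenData
  have hTF : TateFrob W (Tate.tateFam W hΔ) := Tate.tateFrob_of_frobCore hFC W hΔ
  have hTU : TateUnip (Tate.tateFam W hΔ) :=
    Tr.tateUnip_of_multFixed W hΔ hss (multFixed W hΔ) hTF
  have hCC : CmpCharpoly W (Tate.tateFam W hΔ) := Cmp.cmpCharpoly W _ hΔ hTF
  have hCR : CmpRes W := Cmp.cmpRes W hΔ hTF
  refine isModularModelOfLevel_conductorLevel_of_steps W (Tate.tateFam W hΔ) hΔ hTF hCC hED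
    apBound hN0 hMN hg hgW ?_
  intro q hq
  by_cases hqp : q = p
  · have hqp' : q ≠ p' := fun h => hpp' (hqp.symm.trans h)
    exact not_sq_dvd_level_k W (Tate.tateFam W hΔ) h36 hTU hCC hCR hED hN0 p' hp'2 hirr' hMN hg
      hgW q hq hqp'
  · exact not_sq_dvd_level_k W (Tate.tateFam W hΔ) h36 hTU hCC hCR hED hN0 p hp2 hirr hMN hg
      hgW q hq hqp

end Fermat.Agent.S45lib.Model
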