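/-
S45 library (helper9), block Model: **from a modular model at `rad Δ` to `ModularRepOfLevel` at a
conductor level of the Frey package.**

* `isConductorLevel_freyCurveInt` : `rad |Δ(freyCurveInt)|` is a conductor level of `P`
  (`256 Δ = (a^p b^p c^p)²`);
* `modularRepOfLevel_of_isModularModelOfLevel` : an integral model of the Frey curve which is
  modular of level `N` (equality of the `a_ℓ`) makes the mod `p` representation modular of level
  `N` (congruence of the `a_ℓ` modulo any maximal ideal over `p`).
-/
import Mathlib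
import Fermat.Prelude.Def_FreyPackage_IsConductorLevel
import Fermat.Prelude.Def_FLTPrelim_ModularRep
import Fermat.Prelude.Def_WeierstrassCurve_ConductorLevel
import Fermat.Agent.S12lib.FreyModel

set_option autoImplicit false

namespace Fermat.Agent.S45lib.Model

open WeierstrassCurve FreyPackage

/-- `rad |Δ|` of the integral Frey model is a conductor level of the Frey package. -/
theorem isConductorLevel_freyCurveInt (P : FreyPackage) :
    P.IsConductorLevel P.freyCurveInt.conductorLevel where
  pos := P.freyCurveInt.conductorLevel_pos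
  squarefree := P.freyCurveInt.squarefree_conductorLevel
  support q hq hqN := by
    obtain ⟨-, hΔ, -⟩ := Fermat.Agent.S12lib.freyModelStmt P
    have hq' : Prime (q : ℤ) := Nat.prime_iff_prime_int.mp hq
    have h1 : (q : ℤ) ∣ P.freyCurveInt.Δ :=
      (P.freyCurveInt.prime_dvd_conductorLevel_iff hΔ hq).mp hqN
    have h2 : (q : ℤ) ∣ (P.a ^ P.p * P.b ^ P.p * P.c ^ P.p) ^ 2 := by
      rw [← Fermat.Agent.S12lib.FreyModel.disc_eq]
      exact Dvd.dvd.mul_left h1 256
    have h3 : (q : ℤ) ∣ P.a ^ P.p * P.b ^ P.p * P.c ^ P.p := hq'.dvd_of_dvd_pow h2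
    have h4 : P.a ^ P.p * P.b ^ P.p * P.c ^ P.p = (P.a * P.b * P.c) ^ P.p := by ring
    rw [h4] at h3
    exact hq'.dvd_of_dvd_pow h3

/-- a modular integral model of the Frey curve makes the mod `p` representation modular. -/
theorem modularRepOfLevel_of_isModularModelOfLevel (P : FreyPackage) {W : WeierstrassCurve ℤ}
    (hW : W.IsIntegralModelOf P.freyCurve) {N : ℕ} (h : W.IsModularModelOfLevel N) :
    P.ModularRepOfLevel N := by
  obtain ⟨f, hf, hfW⟩ := h
  obtain ⟨𝔪, h𝔪, hp𝔪⟩ := FLTPrelim.exists_maximalIdeal_natCast_prime_mem P.pp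
  refine ⟨f, W, 𝔪, hf, hW, h𝔪, hp𝔪, ?_⟩
  intro l hl hgood hlN _
  refine ⟨((W.apOfModel l : ℤ) : integralClosure ℤ ℂ), ?_, ?_⟩
  · rw [hfW l hl hgood hlN]
    push_cast
    rfl
  · rw [sub_self]
    exact 𝔪.zero_mem

/-- **(c′)** the integral Frey model modular at `rad Δ` ⇒ conductor level + modular
representation. -/
theorem frey_conductor_modularRep (P : FreyPackage)
    (h : P.freyCurveInt.IsModularModelOfLevel P.freyCurveInt.conductorLevel) :
    P.IsConductorLevel P.freyCurveInt.conductorLevel ∧
      P.ModularRepOfLevel P.freyCurveInt.conductorLevel :=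
  ⟨isConductorLevel_freyCurveInt P,
    modularRepOfLevel_of_isModularModelOfLevel P
      ⟨1, by rw [one_smul]; exact (Fermat.Agent.S12lib.freyModelStmt P).1⟩ h⟩

end Fermat.Agent.S45lib.Model
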