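/-
S45 library (helper9), block Model: **S45 conditional on `S36kGal`** (Carayol's theorem in Galois
form for all exponents `≥ 2`).

Chain: `P.p = 5` is excluded by Kummer (`Kummer.flt_five`), so `P.p ≥ 7` and S51 gives a second odd
residual prime `p' ∈ {3, 5}`, `p' ≠ P.p`, with `W[p']` irreducible for the semistable integral Frey
model `W = freyCurveInt`.  `IsModular` + model change (`exists_newform_of_isModular`) ⇒ a newform
attached to `W`; `s58k` ⇒ `W` modular of level `rad Δ`; `frey_conductor_modularRep` ⇒ conductor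
level + `ModularRepOfLevel`; `exists_cuspForm_two_of_modularRep` (S44, S05 + S43, S08) ⇒ the
nonzero cusp form of level 2.
-/
import Fermat.Agent.S45lib.Model.Newform
import Fermat.Agent.S45lib.Model.S58k
import Fermat.Agent.S45lib.Model.ToRep
import Fermat.Agent.S45lib.Model.Descent
import Fermat.Agent.S51
import Fermat.Agent.Kummer.Main
import Fermat.Agent.S43lib.B3.Arith.Det

set_option autoImplicit false
set_option linter.style.haveILetI false

namespace Fermat.Agent.S45lib.Model

open WeierstrassCurve WeierstrassCurve.Affine WeierstrassCurve.Affine.Point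
open FreyPackage

/-- **S45 from `S36kGal`.** -/
theorem s45_of_s36kGal (h36 : S36kGal) (P : FreyPackage) (hmod : P.freyCurve.IsModular)
    (hirr : GaloisRepIsIrreducible (K := AlgebraicClosure ℚ) ℚ P.freyCurve P.p) :
    ∃ f : CuspForm (CongruenceSubgroup.Gamma0 2) 2, f ≠ 0 := by
  -- `P.p ≠ 5`
  have hp5 : P.p ≠ 5 := fun h =>
    Fermat.Agent.Kummer.false_of_freyPackage P (h ▸ Fermat.Agent.Kummer.flt_five)
  have hp5' : 5 ≤ P.p := P.hp5
  -- the integral model
  obtain ⟨hFM, hΔ, hss⟩ := Fermat.Agent.S12lib.freyModelStmt P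
  have hW : P.freyCurveInt.IsIntegralModelOf P.freyCurve :=
    Fermat.Agent.S43lib.B3.freyCurveInt_isIntegralModelOf P
  haveI : Fact P.p.Prime := ⟨P.pp⟩
  have hp2 : P.p ≠ 2 := by omega
  have hirrW : P.freyCurveInt.ModRepIsIrreducible P.p := by
    unfold WeierstrassCurve.ModRepIsIrreducible
    rw [← hFM]
    exact hirr
  -- the newform attached to the integral model
  obtain ⟨N, hN0, M, hM, hMN, g, hg, -, hgW⟩ := exists_newform_of_isModular hmod hW hΔ
  haveI := hM
  -- the second residual prime
  have hmain : P.freyCurveInt.IsModularModelOfLevel P.freyCurveInt.conductorLevel := by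
    rcases Fermat.Agent.S51.result P.freyCurveInt hΔ hss with h3 | h5
    · haveI : Fact (Nat.Prime 3) := ⟨Nat.prime_three⟩
      exact s58k h36 P.freyCurveInt hΔ hss P.p hp2 hirrW 3 (by norm_num) h3 (by omega) hN0 hMN
        hg hgW
    · haveI : Fact (Nat.Prime 5) := ⟨Nat.prime_five⟩
      exact s58k h36 P.freyCurveInt hΔ hss P.p hp2 hirrW 5 (by norm_num) h5 hp5 hN0 hMN hg hgW
  obtain ⟨hcond, hrep⟩ := frey_conductor_modularRep P hmain
  exact exists_cuspForm_two_of_modularRep P hirr hcond hrep

end Fermat.Agent.S45lib.Model
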