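/-
S45 library (helper9), block Model: **the adapter from helper7's hub to `S36kGal`, and S45 from the
one geometric interface `Hub.AuxInertiaNewK`.**

* `s36kGal_of_auxK` : `(∀ p, p.Prime → Hub.AuxInertiaNewK p) → S36kGal` (`Hub.inertiaKillSq_of_auxK` +
  `Hub.s36k_of_inertiaKill`, translating the selector `q ^ 2 ∣ N` into `2 ≤ N.factorization q`);
* `s45_of_auxInertiaNewK` : `(∀ p, p.Prime → Hub.AuxInertiaNewK p) → <S45 verbatim>`.
-/
import Fermat.Agent.S45lib.Hub.Kill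
import Fermat.Agent.S45lib.Hub.Gal
import Fermat.Agent.S45lib.Model.S45Of

set_option autoImplicit false
set_option linter.style.haveILetI false

namespace Fermat.Agent.S45lib.Model

open WeierstrassCurve WeierstrassCurve.Affine WeierstrassCurve.Affine.Point
open FreyPackage

/-- **`S36kGal` from the geometric interface.** -/
theorem s36kGal_of_auxK (H : ∀ p : ℕ, p.Prime → Fermat.Agent.S45lib.Hub.AuxInertiaNewK p) : S36kGal := by
  intro p _ N _ g hg S hpS hNS 𝒪' _ _ _ _ _ _ hp𝒪' chig hchig iota hres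
  have hp : p.Prime := Fact.out
  obtain ⟨𝒪'', i1, i2, i3, i4, i5, i6, i7, i8, i9, hinj, ρ, hatt, hnot⟩ :=
    Fermat.Agent.S45lib.Hub.s36k_of_inertiaKill p N hg.1
      (Fermat.Agent.S45lib.Hub.inertiaKillSq_of_auxK hp hg (H p hp)) S hpS hNS 𝒪' hp𝒪' chig hchig
      iota hres
  exact ⟨𝒪'', i1, i2, i3, i4, i5, i6, i7, i8, i9, hinj, ρ, hatt, fun q hq hqp hfact =>
    hnot q hq hqp ((hq.pow_dvd_iff_le_factorization (NeZero.ne N)).mpr hfact)⟩

/-- **S45 from `Hub.AuxInertiaNewK`.** -/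
theorem s45_of_auxInertiaNewK (H : ∀ p : ℕ, p.Prime → Fermat.Agent.S45lib.Hub.AuxInertiaNewK p)
    (P : FreyPackage) (hmod : P.freyCurve.IsModular)
    (hirr : GaloisRepIsIrreducible (K := AlgebraicClosure ℚ) ℚ P.freyCurve P.p) :
    ∃ f : CuspForm (CongruenceSubgroup.Gamma0 2) 2, f ≠ 0 :=
  s45_of_s36kGal (s36kGal_of_auxK H) P hmod hirr

end Fermat.Agent.S45lib.Model
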